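import Mathlib.LinearAlgebra.Matrix.PosDef
import Mathlib.LinearAlgebra.Matrix.GeneralLinearGroup.Defs
import Mathlib.Analysis.Complex.Basic
import Mathlib.Topology.Instances.Matrix

/-!
# Hyperbolic three-space as positive Hermitian matrices of determinant one

`GL₂(ℂ)` acts by `g • P = g P gᴴ / |det g|`, preserving the point-pair invariant `cdist`.
-/

set_option autoImplicit false

open Matrix
open scoped ComplexOrder

namespace Fermat.Agent.LT

/-- Hyperbolic three-space. -/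
@[ext] structure H3 where
  /-- The Hermitian matrix. -/
  mat : Matrix (Fin 2) (Fin 2) ℂ
  posDef : mat.PosDef
  det_eq : mat.det = 1

namespace H3

noncomputable instance : TopologicalSpace H3 := TopologicalSpace.induced mat inferInstance

/-- The base point. -/
def origin : H3 := ⟨1, Matrix.PosDef.one, Matrix.det_one⟩

/-- The determinant of an invertible matrix has positive norm. -/
theorem norm_det_pos (g : GL (Fin 2) ℂ) : 0 < ‖(g : Matrix (Fin 2) (Fin 2) ℂ).det‖ :=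
  norm_pos_iff.mpr ((Matrix.isUnit_iff_isUnit_det _).mp g.isUnit).ne_zero

/-- `g • P = g P gᴴ / |det g|`. -/
noncomputable def act (g : GL (Fin 2) ℂ) (P : H3) : H3 where
  mat := ((‖(g : Matrix (Fin 2) (Fin 2) ℂ).det‖⁻¹ : ℝ) : ℂ) •
    ((g : Matrix (Fin 2) (Fin 2) ℂ) * P.mat * (g : Matrix (Fin 2) (Fin 2) ℂ)ᴴ)
  posDef := by
    refine Matrix.PosDef.smul ?_ (Complex.zero_lt_real.mpr (inv_pos.mpr (norm_det_pos g)))
    exact P.posDef.mul_mul_conjTranspose_same (Matrix.vecMul_injective_of_isUnit g.isUnit)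
  det_eq := by
    have h := (norm_det_pos g).ne'
    rw [Matrix.det_smul, Fintype.card_fin, Matrix.det_mul, Matrix.det_mul,
      Matrix.det_conjTranspose, P.det_eq, mul_one]
    set d := (g : Matrix (Fin 2) (Fin 2) ℂ).det
    have hd : d * star d = ((‖d‖ : ℝ) : ℂ) ^ 2 := Complex.mul_conj' d
    rw [hd, ← mul_pow, ← Complex.ofReal_mul, inv_mul_cancel₀ h]
    simp

noncomputable instance : MulAction (GL (Fin 2) ℂ) H3 where
  smul := act
  one_smul P := by
    show act 1 P = P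
    ext1
    simp [act]
  mul_smul g h P := by
    show act (g * h) P = act g (act h P)
    ext1
    simp only [act, Units.val_mul, Matrix.det_mul, norm_mul, mul_inv, Complex.ofReal_mul,
      Matrix.conjTranspose_mul, Matrix.mul_smul, Matrix.smul_mul, smul_smul, Matrix.mul_assoc]

/-- Matrix of the translate of a point of hyperbolic space. -/
theorem smul_mat (g : GL (Fin 2) ℂ) (P : H3) :
    (g • P).mat = ((‖(g : Matrix (Fin 2) (Fin 2) ℂ).det‖⁻¹ : ℝ) : ℂ) •
      ((g : Matrix (Fin 2) (Fin 2) ℂ) * P.mat * (g : Matrix (Fin 2) (Fin 2) ℂ)ᴴ) := rfl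

/-- Point-pair invariant `tr (P⁻¹ Q) / 2`, the hyperbolic cosine of the distance. -/
noncomputable def cdist (P Q : H3) : ℝ := ((P.mat⁻¹ * Q.mat).trace).re / 2

/-- The point-pair invariant is invariant under `GL₂(ℂ)`. -/
theorem cdist_smul (g : GL (Fin 2) ℂ) (P Q : H3) : cdist (g • P) (g • Q) = cdist P Q := by
  set G := (g : Matrix (Fin 2) (Fin 2) ℂ)
  set c : ℂ := ((‖G.det‖⁻¹ : ℝ) : ℂ)
  have hc : c ≠ 0 := Complex.ofReal_ne_zero.mpr (inv_ne_zero (norm_det_pos g).ne')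
  have hG : IsUnit G.det := (Matrix.isUnit_iff_isUnit_det _).mp g.isUnit
  have hGs : IsUnit Gᴴ.det := by rw [Matrix.det_conjTranspose]; exact hG.star
  have hinv : (c • (G * P.mat * Gᴴ))⁻¹ = c⁻¹ • (Gᴴ⁻¹ * P.mat⁻¹ * G⁻¹) := by
    refine Matrix.inv_eq_left_inv ?_
    rw [Matrix.smul_mul, Matrix.mul_smul, smul_smul, inv_mul_cancel₀ hc, one_smul]
    calc Gᴴ⁻¹ * P.mat⁻¹ * G⁻¹ * (G * P.mat * Gᴴ)
        = Gᴴ⁻¹ * (P.mat⁻¹ * ((G⁻¹ * G) * P.mat)) * Gᴴ := by simp only [Matrix.mul_assoc]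
      _ = 1 := by
        rw [Matrix.nonsing_inv_mul _ hG, one_mul,
          Matrix.nonsing_inv_mul _ (by rw [P.det_eq]; exact isUnit_one), mul_one,
          Matrix.nonsing_inv_mul _ hGs]
  unfold cdist
  congr 2
  rw [smul_mat, smul_mat, hinv, Matrix.smul_mul, Matrix.mul_smul, smul_smul, inv_mul_cancel₀ hc,
    one_smul]
  calc (Gᴴ⁻¹ * P.mat⁻¹ * G⁻¹ * (G * Q.mat * Gᴴ)).trace
      = (Gᴴ⁻¹ * (P.mat⁻¹ * ((G⁻¹ * G) * Q.mat)) * Gᴴ).trace := by simp only [Matrix.mul_assoc]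
    _ = _ := by
      rw [Matrix.trace_mul_comm, ← Matrix.mul_assoc, Matrix.mul_nonsing_inv _ hGs, one_mul,
        Matrix.nonsing_inv_mul _ hG, one_mul]

end H3

end Fermat.Agent.LT
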