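import Fermat.Agent.LT.Adele
import Fermat.Agent.LT.Hyperbolic
import Mathlib.NumberTheory.NumberField.InfinitePlace.Basic
import Mathlib.GroupTheory.Coset.Basic
import Mathlib.Topology.Algebra.InfiniteSum.Defs

/-!
# The finite-level space `H3^places × GL₂(A_f)/U` of a totally complex field

Automorphic functions for `PGL₂` are functions on `Y U` invariant under `GL₂(F)`. Integrals over
the quotient are integrals over `Y U` against a partition of unity, so no fundamental domain and
no Haar measure on adelic groups is needed.
-/

set_option autoImplicit false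

open scoped Matrix

namespace Fermat.Agent.LT

variable (F : Type*) [Field F] [NumberField F]

/-- Principal congruence condition of level `N` on finite adelic matrices. -/
def IsPrincipal (N : ℕ) (g : GLFin F) : Prop :=
  ∀ i j, ∃ a ∈ integralAdele F, ∃ b ∈ integralAdele F,
    (g : Matrix (Fin 2) (Fin 2) (FinAdele F)) i j =
        (1 : Matrix (Fin 2) (Fin 2) (FinAdele F)) i j + (N : FinAdele F) * a ∧
      (g⁻¹ : GLFin F).val i j =
        (1 : Matrix (Fin 2) (Fin 2) (FinAdele F)) i j + (N : FinAdele F) * b

/-- A level: an open subgroup containing all scalars and contained in scalars times a maximal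
compact subgroup. -/
structure Level where
  /-- The subgroup. -/
  toSubgroup : Subgroup (GLFin F)
  scalar_mem : ∀ a : (FinAdele F)ˣ, scalarFin F a ∈ toSubgroup
  exists_principal : ∃ N : ℕ, 0 < N ∧ ∀ g, IsPrincipal F N g → g ∈ toSubgroup
  le_maximal : ∀ g ∈ toSubgroup, ∃ (a : (FinAdele F)ˣ) (k : GLFin F),
    IsPrincipal F 1 k ∧ g = scalarFin F a * k

variable {F}

/-- The space of level `U`. -/
abbrev Y (U : Level F) : Type _ :=
  (NumberField.InfinitePlace F → H3) × (GLFin F ⧸ U.toSubgroup)

variable (F) in
/-- The embedding of `GL₂(F)` at an infinite place. -/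
noncomputable def glEmb (w : NumberField.InfinitePlace F) : GL (Fin 2) F →* GL (Fin 2) ℂ :=
  Matrix.GeneralLinearGroup.map w.embedding

noncomputable instance ySMul (U : Level F) : MulAction (GL (Fin 2) F) (Y U) where
  smul γ y := (fun w => glEmb F w γ • y.1 w, glIncl F γ • y.2)
  one_smul y := by
    show (fun w => glEmb F w 1 • y.1 w, glIncl F 1 • y.2) = y
    simp
  mul_smul a b y := by
    show (fun w => glEmb F w (a * b) • y.1 w, glIncl F (a * b) • y.2) =
      (fun w => glEmb F w a • glEmb F w b • y.1 w, glIncl F a • glIncl F b • y.2)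
    simp [mul_smul]

/-- The action on the archimedean component. -/
theorem smul_fst (U : Level F) (γ : GL (Fin 2) F) (y : Y U) (w : NumberField.InfinitePlace F) :
    (γ • y).1 w = glEmb F w γ • y.1 w := rfl

/-- The action on the finite component. -/
theorem smul_snd (U : Level F) (γ : GL (Fin 2) F) (y : Y U) :
    (γ • y).2 = glIncl F γ • y.2 := rfl

variable (F) in
/-- Scalar matrices of `F`. -/
noncomputable def scalarGlobal : Fˣ →* GL (Fin 2) F :=
  Units.map (Matrix.scalar (Fin 2)).toMonoidHom

omit [NumberField F] in
/-- Matrix of a global scalar. -/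
theorem scalarGlobal_val (a : Fˣ) :
    (scalarGlobal F a : Matrix (Fin 2) (Fin 2) F) = (a : F) • 1 := by
  ext i j
  by_cases h : i = j
  · subst h; simp [scalarGlobal]
  · simp [scalarGlobal, h]

omit [NumberField F] in
/-- Global scalars map to finite adelic scalars. -/
theorem glIncl_scalarGlobal (a : Fˣ) :
    glIncl F (scalarGlobal F a) = scalarFin F (Units.map (finIncl F).toMonoidHom a) := by
  ext i j
  by_cases h : i = j
  · subst h; simp [glIncl, scalarGlobal, scalarFin]
  · simp [glIncl, scalarGlobal, scalarFin, h]

omit [NumberField F] in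
/-- Scalar matrices are central. -/
theorem scalarFin_comm (a : (FinAdele F)ˣ) (g : GLFin F) :
    scalarFin F a * g = g * scalarFin F a := by
  ext : 1
  exact Matrix.scalar_commute (a : FinAdele F) (fun r => mul_comm _ r) g.val

/-- Scalars act trivially. -/
theorem scalarGlobal_smul (U : Level F) (a : Fˣ) (y : Y U) : scalarGlobal F a • y = y := by
  refine Prod.ext (funext fun w => ?_) ?_
  · rw [smul_fst]
    ext1
    have hne : w.embedding (a : F) ≠ 0 := fun h =>
      a.ne_zero (w.embedding.injective (h.trans (map_zero _).symm))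
    have hm : (glEmb F w (scalarGlobal F a) : Matrix (Fin 2) (Fin 2) ℂ) =
        w.embedding (a : F) • (1 : Matrix (Fin 2) (Fin 2) ℂ) := by
      ext i j
      by_cases h : i = j
      · subst h; simp [glEmb, scalarGlobal]
      · simp [glEmb, scalarGlobal, h]
    rw [H3.smul_mat, hm]
    simp only [Matrix.conjTranspose_smul, Matrix.conjTranspose_one, Matrix.smul_mul,
      Matrix.mul_smul, Matrix.one_mul, smul_smul, Matrix.det_smul, Matrix.det_one,
      Fintype.card_fin, mul_one, norm_pow]
    have hs : (((‖w.embedding (a : F)‖ ^ 2)⁻¹ : ℝ) : ℂ) *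
        (w.embedding (a : F) * star (w.embedding (a : F))) = 1 := by
      rw [Complex.star_def, Complex.mul_conj']
      push_cast
      rw [inv_mul_cancel₀]
      exact pow_ne_zero _ (Complex.ofReal_ne_zero.mpr (norm_ne_zero_iff.mpr hne))
    simp [mul_comm, mul_left_comm] at hs ⊢
    rw [hs, one_smul]
  · rw [smul_snd, glIncl_scalarGlobal]
    refine QuotientGroup.induction_on y.2 fun g => ?_
    show QuotientGroup.mk (scalarFin F (Units.map (finIncl F).toMonoidHom a) * g) = _
    rw [scalarFin_comm]
    exact (QuotientGroup.eq).mpr (by simpa using U.toSubgroup.inv_mem (U.scalar_mem _))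

variable (F) in
/-- The group `PGL₂(F)`, used only as an index set for sums over `GL₂(F)` modulo scalars. -/
abbrev PGLIndex : Type _ := GL (Fin 2) F ⧸ (scalarGlobal F).range

/-- Automorphic functions of level `U`. -/
def IsAutomorphic {U : Level F} (φ : Y U → ℂ) : Prop :=
  ∀ (γ : GL (Fin 2) F) (y : Y U), φ (γ • y) = φ y

/-- A partition of unity for the action of `GL₂(F)` modulo scalars. -/
structure PartitionOfUnity (U : Level F) where
  /-- The weight. -/
  weight : Y U → ℝ
  nonneg : ∀ y, 0 ≤ weight y
  hasSum : ∀ (y : Y U) (s : PGLIndex F → GL (Fin 2) F),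
    (∀ c, QuotientGroup.mk (s c) = c) → HasSum (fun c => weight (s c • y)) 1

end Fermat.Agent.LT
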