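import Fermat.Agent.LT.Space
import Mathlib.Topology.Algebra.InfiniteSum.Basic
import Mathlib.Analysis.Complex.Basic

/-!
# Finite Hecke operators on functions on `Y`

A bi-`U`-invariant function on `GL₂(A_f)` with finitely many cosets in its support acts on
functions on `Y U` and preserves automorphy.
-/

set_option autoImplicit false

namespace Fermat.Agent.LT

variable {F : Type*} [Field F] [NumberField F]

/-- A bi-`U`-invariant function on `GL₂(A_f)` supported on finitely many cosets. -/
structure HeckeFn (U : Level F) where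
  /-- The function. -/
  toFun : GLFin F → ℂ
  left_inv' : ∀ (u g : GLFin F), u ∈ U.toSubgroup → toFun (u * g) = toFun g
  right_inv' : ∀ (g u : GLFin F), u ∈ U.toSubgroup → toFun (g * u) = toFun g
  finite_support : (QuotientGroup.mk '' {g | toFun g ≠ 0} : Set (GLFin F ⧸ U.toSubgroup)).Finite

namespace HeckeFn

variable {U : Level F}

/-- The kernel `(x, y) ↦ h (x⁻¹ y)` on cosets. -/
noncomputable def kernel (h : HeckeFn U) : GLFin F ⧸ U.toSubgroup → GLFin F ⧸ U.toSubgroup → ℂ :=
  Quotient.lift₂ (fun a b => h.toFun (a⁻¹ * b)) (fun a b a' b' ha hb => by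
    have ha' : a⁻¹ * a' ∈ U.toSubgroup := QuotientGroup.leftRel_apply.mp ha
    have hb' : b⁻¹ * b' ∈ U.toSubgroup := QuotientGroup.leftRel_apply.mp hb
    rw [show a'⁻¹ * b' = (a⁻¹ * a')⁻¹ * ((a⁻¹ * b) * (b⁻¹ * b')) by group,
      h.left_inv' _ _ (U.toSubgroup.inv_mem ha'), h.right_inv' _ _ hb'])

/-- Value of the kernel on classes. -/
theorem kernel_mk (h : HeckeFn U) (a b : GLFin F) :
    h.kernel (QuotientGroup.mk a) (QuotientGroup.mk b) = h.toFun (a⁻¹ * b) := rfl

/-- The kernel is invariant under left translation. -/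
theorem kernel_smul (h : HeckeFn U) (g : GLFin F) (a b : GLFin F ⧸ U.toSubgroup) :
    h.kernel (g • a) (g • b) = h.kernel a b := by
  refine QuotientGroup.induction_on a fun a => QuotientGroup.induction_on b fun b => ?_
  show h.kernel (QuotientGroup.mk (g * a)) (QuotientGroup.mk (g * b)) = _
  rw [kernel_mk, kernel_mk]
  congr 1
  group

/-- The Hecke operator on functions on `Y`. -/
noncomputable def op (h : HeckeFn U) (φ : Y U → ℂ) (y : Y U) : ℂ :=
  ∑ᶠ b, h.kernel y.2 b * φ (y.1, b)

/-- Hecke operators preserve automorphy. -/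
theorem op_isAutomorphic (h : HeckeFn U) {φ : Y U → ℂ} (hφ : IsAutomorphic φ) :
    IsAutomorphic (h.op φ) := by
  intro γ y
  unfold op
  refine (finsum_eq_of_bijective (fun b => glIncl F γ • b) ?_ fun b => ?_).symm
  · exact MulAction.bijective _
  · rw [smul_snd, kernel_smul]
    congr 1
    exact (hφ γ (y.1, b)).symm

/-- `φ` is an eigenfunction of `h` with eigenvalue `c`. -/
def IsEigen (h : HeckeFn U) (φ : Y U → ℂ) (c : ℂ) : Prop := ∀ y, h.op φ y = c * φ y

end HeckeFn

end Fermat.Agent.LT
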