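import Mathlib.NumberTheory.Padics.PadicIntegers
import Mathlib.NumberTheory.NumberField.Basic
import Mathlib.RingTheory.TensorProduct.Basic
import Mathlib.LinearAlgebra.Matrix.GeneralLinearGroup.Defs

/-!
# The finite adeles as `F ⊗ ℤ̂`

`FinAdele F = F ⊗ ℤ̂` with its components `F ⊗ ℤ_p`, the integral subring `𝓞 F ⊗ ℤ̂` of a number
field `F`, and the group `GL₂` over it with its diagonal and scalar elements.

All fields of the tower `ℚ ⊆ K ⊆ L ⊆ M` use the same base `ℤ̂ = ∏ ℤ_p`, so Galois actions, norms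
and fixed points are algebra, and residue computations take place in `𝓞 F / N`.
-/

set_option autoImplicit false

open scoped TensorProduct

namespace Fermat.Agent.LT

instance factPrimeOfPrimes (p : Nat.Primes) : Fact (p : ℕ).Prime := ⟨p.2⟩

/-- `ℤ̂` as the product of all `ℤ_p`. -/
abbrev Zhat : Type := ∀ p : Nat.Primes, ℤ_[(p : ℕ)]

/-- The finite adeles of `F`. -/
abbrev FinAdele (F : Type*) [CommRing F] : Type _ := F ⊗[ℤ] Zhat

/-- The component above the rational prime `p`. -/
abbrev LocalAt (F : Type*) [CommRing F] (p : Nat.Primes) : Type _ := F ⊗[ℤ] ℤ_[(p : ℕ)]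

variable {F : Type*} [Field F]

/-- Projection to the component above `p`. -/
noncomputable def toLocalAt (p : Nat.Primes) : FinAdele F →ₐ[ℤ] LocalAt F p :=
  Algebra.TensorProduct.map (AlgHom.id ℤ F)
    (RingHom.toIntAlgHom (Pi.evalRingHom (fun p : Nat.Primes => ℤ_[(p : ℕ)]) p))

@[simp] theorem toLocalAt_tmul (p : Nat.Primes) (a : F) (z : Zhat) :
    toLocalAt p (a ⊗ₜ z) = a ⊗ₜ z p := rfl

variable (F) in
/-- The diagonal embedding of `F`. -/
noncomputable def finIncl : F →+* FinAdele F :=
  (Algebra.TensorProduct.includeLeft : F →ₐ[ℤ] FinAdele F).toRingHom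

/-- A ring endomorphism of `F` acting on finite adeles. -/
noncomputable def finMap (σ : F →+* F) : FinAdele F →ₐ[ℤ] FinAdele F :=
  Algebra.TensorProduct.map σ.toIntAlgHom (AlgHom.id ℤ Zhat)

/-- Value of `finMap` on a pure tensor. -/
@[simp] theorem finMap_tmul (σ : F →+* F) (a : F) (z : Zhat) :
    finMap σ (a ⊗ₜ z) = σ a ⊗ₜ z := rfl

/-- `finMap` commutes with the inclusion of `F`. -/
theorem finMap_finIncl (σ : F →+* F) (a : F) : finMap σ (finIncl F a) = finIncl F (σ a) := rfl

variable (F) in
/-- The integral finite adeles `𝓞 F ⊗ ℤ̂`. -/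
noncomputable def integralAdele [NumberField F] : Subring (FinAdele F) :=
  (Algebra.TensorProduct.map
    (algebraMap (NumberField.RingOfIntegers F) F).toIntAlgHom
    (AlgHom.id ℤ Zhat)).toRingHom.range

/-- Pure tensors of integers are integral adeles. -/
theorem tmul_mem_integralAdele [NumberField F] (a : NumberField.RingOfIntegers F) (z : Zhat) :
    ((a : F) ⊗ₜ z : FinAdele F) ∈ integralAdele F := ⟨a ⊗ₜ z, rfl⟩

open Matrix in
/-- `GL₂` of the finite adeles. -/
abbrev GLFin (F : Type*) [CommRing F] : Type _ := GL (Fin 2) (FinAdele F)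

variable (F) in
/-- Diagonal embedding of `GL₂(F)`. -/
noncomputable def glIncl : GL (Fin 2) F →* GLFin F :=
  Matrix.GeneralLinearGroup.map (finIncl F)

/-- Galois action on `GL₂` of the finite adeles. -/
noncomputable def glFinMap (σ : F →+* F) : GLFin F →* GLFin F :=
  Matrix.GeneralLinearGroup.map (finMap σ).toRingHom

variable (F) in
/-- Scalar matrices. -/
noncomputable def scalarFin : (FinAdele F)ˣ →* GLFin F :=
  Units.map (Matrix.scalar (Fin 2)).toMonoidHom

end Fermat.Agent.LT
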