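import Fermat.Agent.LT.Space
import Mathlib.NumberTheory.NumberField.InfinitePlace.Ramification

/-!
# Field automorphisms acting on the space `Y`

An automorphism `σ` of `F` permutes the infinite places, with complex conjugation where the chosen
embeddings disagree, and acts entrywise on `GL₂` of the finite adeles; the resulting map on `Y U`
(`U` stable under `σ`) is semilinear for the action of `GL₂(F)`.
-/

set_option autoImplicit false

open Matrix
open scoped ComplexOrder

namespace Fermat.Agent.LT

namespace H3

/-- Entrywise complex conjugation. -/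
noncomputable def conjPoint (P : H3) : H3 where
  mat := P.matᵀ
  posDef := P.posDef.transpose
  det_eq := by rw [Matrix.det_transpose]; exact P.det_eq

/-- The transpose of the matrix of a point is its conjugate. -/
theorem transpose_mat (P : H3) : P.matᵀ = P.mat.map (starRingEnd ℂ) := by
  ext i j
  exact (P.posDef.1.apply j i).symm

/-- Complex conjugation of points commutes with the action up to conjugation of the matrix. -/
theorem conjPoint_smul (g : GL (Fin 2) ℂ) (P : H3) :
    conjPoint (g • P) =
      Matrix.GeneralLinearGroup.map (starRingEnd ℂ) g • conjPoint P := by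
  ext1
  rw [smul_mat]
  show (g • P).matᵀ = _
  rw [transpose_mat, smul_mat]
  rw [show (conjPoint P).mat = P.mat.map (starRingEnd ℂ) from transpose_mat P]
  set G := (g : Matrix (Fin 2) (Fin 2) ℂ)
  rw [show ((Matrix.GeneralLinearGroup.map (starRingEnd ℂ) g : GL (Fin 2) ℂ) :
    Matrix (Fin 2) (Fin 2) ℂ) = G.map (starRingEnd ℂ) from rfl]
  have hd : ‖(G.map (starRingEnd ℂ)).det‖ = ‖G.det‖ := by
    rw [← RingHom.mapMatrix_apply, ← RingHom.map_det, RCLike.norm_conj]
  have hh : (G.map (starRingEnd ℂ))ᴴ = Gᴴ.map (starRingEnd ℂ) := by ext i j; simp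
  rw [hd, hh, ← Matrix.map_mul, ← Matrix.map_mul]
  ext i j
  simp only [Matrix.map_apply, Matrix.smul_apply, smul_eq_mul, map_mul, Complex.conj_ofReal]

/-- Conjugation of points is an involution. -/
theorem conjPoint_conjPoint (P : H3) : conjPoint (conjPoint P) = P := by
  ext1
  exact Matrix.transpose_transpose _

end H3

variable {F : Type*} [Field F] [NumberField F]

open Classical in
/-- A field automorphism acting on the archimedean part. -/
noncomputable def galInf (σ : F ≃+* F) (P : NumberField.InfinitePlace F → H3)
    (w : NumberField.InfinitePlace F) : H3 :=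
  if w.embedding.comp (σ : F →+* F) = (w.comap (σ : F →+* F)).embedding then
    P (w.comap (σ : F →+* F))
  else H3.conjPoint (P (w.comap (σ : F →+* F)))

omit [NumberField F] in
/-- If `w ∘ σ` is not the chosen embedding of its place, it is the conjugate one. -/
theorem embedding_comap_of_ne (σ : F ≃+* F) (w : NumberField.InfinitePlace F)
    (h : w.embedding.comp (σ : F →+* F) ≠ (w.comap (σ : F →+* F)).embedding) :
    w.embedding.comp (σ : F →+* F) =
      (starRingEnd ℂ).comp (w.comap (σ : F →+* F)).embedding := by
  have hm : NumberField.InfinitePlace.mk (w.embedding.comp (σ : F →+* F)) =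
      NumberField.InfinitePlace.mk (w.comap (σ : F →+* F)).embedding := by
    rw [← NumberField.InfinitePlace.comap_mk, NumberField.InfinitePlace.mk_embedding,
      NumberField.InfinitePlace.mk_embedding]
  rcases NumberField.InfinitePlace.mk_eq_iff.mp hm with h' | h'
  · exact absurd h' h
  · rw [← h']
    ext x
    simp [NumberField.ComplexEmbedding.conjugate]

omit [NumberField F] in
/-- The Galois action at infinity is compatible with the action of `GL₂(F)`. -/
theorem galInf_smul (σ : F ≃+* F) (γ : GL (Fin 2) F) (P : NumberField.InfinitePlace F → H3)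
    (w : NumberField.InfinitePlace F) :
    galInf σ (fun w' => glEmb F w' γ • P w') w =
      glEmb F w (Matrix.GeneralLinearGroup.map (σ : F →+* F) γ) • galInf σ P w := by
  have hmap : glEmb F w (Matrix.GeneralLinearGroup.map (σ : F →+* F) γ) =
      Matrix.GeneralLinearGroup.map (w.embedding.comp (σ : F →+* F)) γ := by
    ext i j; rfl
  rw [hmap]
  unfold galInf
  split_ifs with h
  · rw [h]; rfl
  · rw [H3.conjPoint_smul, embedding_comap_of_ne σ w h]
    congr 1

/-- The Galois action on finite cosets for a stable level. -/
noncomputable def galFin (σ : F ≃+* F) (U : Level F)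
    (hU : ∀ g ∈ U.toSubgroup, glFinMap (σ : F →+* F) g ∈ U.toSubgroup) :
    GLFin F ⧸ U.toSubgroup → GLFin F ⧸ U.toSubgroup :=
  Quotient.map' (glFinMap (σ : F →+* F)) (fun a b h => by
    rw [QuotientGroup.leftRel_apply] at h ⊢
    rw [← map_inv, ← map_mul]
    exact hU _ h)

/-- Value of `galFin` on a class. -/
theorem galFin_mk (σ : F ≃+* F) (U : Level F)
    (hU : ∀ g ∈ U.toSubgroup, glFinMap (σ : F →+* F) g ∈ U.toSubgroup) (g : GLFin F) :
    galFin σ U hU (QuotientGroup.mk g) = QuotientGroup.mk (glFinMap (σ : F →+* F) g) := rfl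

omit [NumberField F] in
/-- `glFinMap` commutes with the inclusion of `GL₂(F)`. -/
theorem glFinMap_glIncl (σ : F →+* F) (γ : GL (Fin 2) F) :
    glFinMap σ (glIncl F γ) = glIncl F (Matrix.GeneralLinearGroup.map σ γ) := by
  ext i j; rfl

/-- A field automorphism acting on `Y`. -/
noncomputable def galY (σ : F ≃+* F) (U : Level F)
    (hU : ∀ g ∈ U.toSubgroup, glFinMap (σ : F →+* F) g ∈ U.toSubgroup) (y : Y U) : Y U :=
  (galInf σ y.1, galFin σ U hU y.2)

/-- The action of an automorphism on `Y` is semilinear for the action of `GL₂(F)`. -/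
theorem galY_smul (σ : F ≃+* F) (U : Level F)
    (hU : ∀ g ∈ U.toSubgroup, glFinMap (σ : F →+* F) g ∈ U.toSubgroup)
    (γ : GL (Fin 2) F) (y : Y U) :
    galY σ U hU (γ • y) =
      Matrix.GeneralLinearGroup.map (σ : F →+* F) γ • galY σ U hU y := by
  refine Prod.ext (funext fun w => galInf_smul σ γ y.1 w) ?_
  show galFin σ U hU (glIncl F γ • y.2) = glIncl F _ • galFin σ U hU y.2
  refine QuotientGroup.induction_on y.2 fun g => ?_
  show galFin σ U hU (QuotientGroup.mk (glIncl F γ * g)) = QuotientGroup.mk (_ * _)
  rw [galFin_mk, map_mul, glFinMap_glIncl]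

end Fermat.Agent.LT
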